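/-
Project MW (S17), core leaf [HOMV], part 1 (Mathlib only): the abstract local estimate.

* `mw_homv_scale`    : a multi-homogeneous polynomial scales blockwise;
* `mw_homv_eval_le`  : `|p(u)| ≤ ∑ |coeff|` when all `|u_i| ≤ 1`;
* `mw_homv_na_eval_le` : the ultrametric version `|p(u)| ≤ D` when all `|coeff| ≤ D`;
* `mw_homv_reduce`   : reduction of the two-sided estimate to NORMALISED vectors
                       (every block has sup norm `1`, attained at a coordinate equal to `1`).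
Prefix `mw_homv_`.
-/
import Mathlib

set_option autoImplicit false

noncomputable section

namespace Fermat.Agent.MW

open MvPolynomial
open scoped Classical

/-- the weight function of the `j`-th block -/
def mw_homv_wt {σ : Type} {t : ℕ} (b : σ → Fin t) (j : Fin t) : σ → ℕ :=
  fun i => if b i = j then 1 else 0

section Scale

variable {R : Type*} [CommRing R] {σ : Type} [Fintype σ] {t : ℕ} (b : σ → Fin t)

theorem mw_homv_prod_block (c : Fin t → R) (m : σ →₀ ℕ) :
    ∏ i, c (b i) ^ m i = ∏ j, c j ^ (Finsupp.weight (mw_homv_wt b j) m) := by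
  have h1 : ∀ j : Fin t, Finsupp.weight (mw_homv_wt b j) m = ∑ i, m i * mw_homv_wt b j i := by
    intro j
    rw [Finsupp.weight_apply, Finsupp.sum_fintype _ _ (fun i => by simp)]
    simp [smul_eq_mul]
  simp_rw [h1, ← Finset.prod_pow_eq_pow_sum]
  rw [Finset.prod_comm]
  refine Finset.prod_congr rfl fun i _ => ?_
  rw [Finset.prod_eq_single (b i)]
  · simp [mw_homv_wt]
  · intro j _ hj
    simp [mw_homv_wt, Ne.symm hj]
  · intro h
    exact absurd (Finset.mem_univ _) h

/-- a multi-homogeneous polynomial scales blockwise -/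
theorem mw_homv_scale (p : MvPolynomial σ R) (d : Fin t → ℕ)
    (hp : ∀ j, p.IsWeightedHomogeneous (mw_homv_wt b j) (d j)) (c : Fin t → R) (u : σ → R) :
    eval (fun i => c (b i) * u i) p = (∏ j, c j ^ d j) * eval u p := by
  rw [eval_eq', eval_eq', Finset.mul_sum]
  refine Finset.sum_congr rfl fun m hm => ?_
  have hm' : coeff m p ≠ 0 := mem_support_iff.mp hm
  have h1 : ∏ i, (c (b i) * u i) ^ m i = (∏ i, c (b i) ^ m i) * ∏ i, u i ^ m i := by
    rw [← Finset.prod_mul_distrib]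
    exact Finset.prod_congr rfl fun i _ => mul_pow _ _ _
  have h2 : ∏ j, c j ^ (Finsupp.weight (mw_homv_wt b j) m) = ∏ j, c j ^ d j :=
    Finset.prod_congr rfl fun j _ => by rw [hp j hm']
  rw [h1, mw_homv_prod_block, h2]
  ring

end Scale

section Bounds

variable {F : Type*} [Field F] (w : AbsoluteValue F ℝ) {σ : Type} [Fintype σ]

theorem mw_homv_monomial_le (u : σ → F) (hu : ∀ i, w (u i) ≤ 1) (m : σ →₀ ℕ) :
    w (∏ i, u i ^ m i) ≤ 1 := by
  rw [map_prod]
  refine Finset.prod_le_one (fun i _ => w.nonneg _) fun i _ => ?_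
  rw [map_pow]
  exact pow_le_one₀ (w.nonneg _) (hu i)

/-- `|p(u)| ≤ ∑ |coeff|` when all `|u_i| ≤ 1` -/
theorem mw_homv_eval_le (p : MvPolynomial σ F) (u : σ → F) (hu : ∀ i, w (u i) ≤ 1) :
    w (eval u p) ≤ ∑ m ∈ p.support, w (coeff m p) := by
  rw [eval_eq']
  refine (w.sum_le _ _).trans (Finset.sum_le_sum fun m _ => ?_)
  rw [map_mul]
  exact mul_le_of_le_one_right (w.nonneg _) (mw_homv_monomial_le w u hu m)

theorem mw_homv_na_sum_le (hw : IsNonarchimedean w) {α : Type*} (s : Finset α) (l : α → F)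
    (D : ℝ) (hD : 0 ≤ D) (h : ∀ i ∈ s, w (l i) ≤ D) : w (∑ i ∈ s, l i) ≤ D := by
  induction s using Finset.induction_on with
  | empty => simpa using hD
  | insert a s ha ih =>
    rw [Finset.sum_insert ha]
    refine (hw _ _).trans (max_le (h a (Finset.mem_insert_self _ _)) ?_)
    exact ih fun i hi => h i (Finset.mem_insert_of_mem hi)

/-- ultrametric: `|p(u)| ≤ D` when all `|coeff| ≤ D` and all `|u_i| ≤ 1` -/
theorem mw_homv_na_eval_le (hw : IsNonarchimedean w) (p : MvPolynomial σ F) (u : σ → F)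
    (hu : ∀ i, w (u i) ≤ 1) (D : ℝ) (hD : 0 ≤ D) (hc : ∀ m, w (coeff m p) ≤ D) :
    w (eval u p) ≤ D := by
  rw [eval_eq']
  refine mw_homv_na_sum_le w hw _ _ D hD fun m _ => ?_
  rw [map_mul]
  exact (mul_le_of_le_one_right (w.nonneg _) (mw_homv_monomial_le w u hu m)).trans (hc m)

end Bounds

section Reduce

variable {F : Type*} [Field F] (w : AbsoluteValue F ℝ) {σ : Type} [Fintype σ] {t : ℕ}
  (b : σ → Fin t)

/-- the sup norm of the `j`-th block -/
def mw_homv_blk (j : Fin t) (v : σ → F) : ℝ := ⨆ i, w (if b i = j then v i else 0)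

/-- **reduction to normalised vectors.**  `Z` a set of vectors stable under blockwise rescaling,
`ρ` multi-homogeneous of multidegree `deg`.  If for every NORMALISED `u ∈ Z` (with pivots `f`)
`A(u) := sup_i |ρ_i(u)|` satisfies `0 < A(u)` and `|log A(u)| ≤ bnd`, then for every `v ∈ Z` with
all blocks nonzero, `|log A(v) - ∑_j deg_j log ‖v_j‖| ≤ bnd`. -/
theorem mw_homv_reduce {ι : Type} [Fintype ι] (ρ : ι → MvPolynomial σ F) (deg : Fin t → ℕ)
    (hρ : ∀ i j, (ρ i).IsWeightedHomogeneous (mw_homv_wt b j) (deg j))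
    (Z : Set (σ → F))
    (hZ : ∀ (c : Fin t → F) (v : σ → F), (∀ j, c j ≠ 0) → v ∈ Z → (fun i => c (b i) * v i) ∈ Z)
    (bnd : ℝ)
    (hnorm : ∀ (u : σ → F) (f : Fin t → σ), u ∈ Z → (∀ j, b (f j) = j) → (∀ j, u (f j) = 1) →
      (∀ i, w (u i) ≤ 1) →
      0 < (⨆ i, w (eval u (ρ i))) ∧ |Real.log (⨆ i, w (eval u (ρ i)))| ≤ bnd)
    (v : σ → F) (hv : v ∈ Z) (hvb : ∀ j : Fin t, ∃ i, b i = j ∧ v i ≠ 0) :
    |Real.log (⨆ i, w (eval v (ρ i))) - ∑ j, (deg j : ℝ) * Real.log (mw_homv_blk w b j v)|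
      ≤ bnd := by
  -- pivots
  have hpiv : ∀ j : Fin t, ∃ i, b i = j ∧ v i ≠ 0 ∧ ∀ i', b i' = j → w (v i') ≤ w (v i) := by
    intro j
    obtain ⟨i0, hi0, hvi0⟩ := hvb j
    have hne : (Finset.univ.filter fun i => b i = j).Nonempty :=
      ⟨i0, Finset.mem_filter.mpr ⟨Finset.mem_univ _, hi0⟩⟩
    obtain ⟨i, hi, hmax⟩ := Finset.exists_max_image _ (fun i => w (v i)) hne
    have hbi : b i = j := (Finset.mem_filter.mp hi).2
    refine ⟨i, hbi, ?_, fun i' hi' => hmax i' (Finset.mem_filter.mpr ⟨Finset.mem_univ _, hi'⟩)⟩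
    intro h0
    have h1 := hmax i0 (Finset.mem_filter.mpr ⟨Finset.mem_univ _, hi0⟩)
    rw [h0, map_zero] at h1
    exact hvi0 (w.eq_zero.mp (le_antisymm h1 (w.nonneg _)))
  choose f hfb hfne hfmax using hpiv
  -- block norms
  have hblk : ∀ j, mw_homv_blk w b j v = w (v (f j)) := by
    intro j
    apply le_antisymm
    · refine Real.iSup_le (fun i => ?_) (w.nonneg _)
      by_cases h : b i = j
      · rw [if_pos h]; exact hfmax j i h
      · rw [if_neg h, map_zero]; exact w.nonneg _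
    · have h := Finite.le_ciSup (fun i => w (if b i = j then v i else 0)) (f j)
      simp only [hfb j, if_true] at h
      exact h
  -- normalisation
  set c : Fin t → F := fun j => v (f j) with hc
  set u : σ → F := fun i => (c (b i))⁻¹ * v i with hu
  have huZ : u ∈ Z := hZ (fun j => (c j)⁻¹) v (fun j => inv_ne_zero (hfne j)) hv
  have hvu : v = fun i => c (b i) * u i := by
    funext i
    simp only [hu]
    rw [← mul_assoc, mul_inv_cancel₀ (hfne (b i)), one_mul]
  have hupiv : ∀ j, u (f j) = 1 := by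
    intro j
    simp only [hu, hc, hfb j]
    exact inv_mul_cancel₀ (hfne j)
  have hule : ∀ i, w (u i) ≤ 1 := by
    intro i
    simp only [hu]
    rw [map_mul, map_inv₀, inv_mul_le_iff₀ (w.pos (hfne (b i))), mul_one]
    exact hfmax (b i) i rfl
  have hA := hnorm u f huZ hfb hupiv hule
  -- scaling
  set P : ℝ := ∏ j, w (c j) ^ deg j with hP
  have hPpos : 0 < P := Finset.prod_pos fun j _ => pow_pos (w.pos (hfne j)) _
  have hscale : ∀ i, w (eval v (ρ i)) = P * w (eval u (ρ i)) := by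
    intro i
    conv_lhs => rw [hvu]
    rw [mw_homv_scale b (ρ i) deg (hρ i) c u, map_mul, map_prod]
    simp only [map_pow, hP]
  have hsup : (⨆ i, w (eval v (ρ i))) = P * ⨆ i, w (eval u (ρ i)) := by
    rw [Real.mul_iSup_of_nonneg hPpos.le]
    exact iSup_congr hscale
  have hlogP : Real.log P = ∑ j, (deg j : ℝ) * Real.log (mw_homv_blk w b j v) := by
    rw [hP, Real.log_prod (fun j _ => (pow_pos (w.pos (hfne j)) _).ne')]
    refine Finset.sum_congr rfl fun j _ => ?_
    rw [Real.log_pow, hblk j]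
  obtain ⟨hA0, hA1⟩ := hA
  rw [hsup, Real.log_mul hPpos.ne' hA0.ne', hlogP]
  simpa using hA1

end Reduce

section Normalised

variable {F : Type*} [Field F] (w : AbsoluteValue F ℝ) {σ : Type} [Fintype σ]
  {ι : Type} [Fintype ι] (ρ q : ι → MvPolynomial σ F) (u : σ → F)

/-- the archimedean normalised estimate -/
theorem mw_homv_norm_arch (hu : ∀ i, w (u i) ≤ 1)
    (hid : ∑ i, eval u (q i) * eval u (ρ i) = 1) (Hρ Hq : ℝ)
    (hHρ : ∀ i, ∑ m ∈ (ρ i).support, w (coeff m (ρ i)) ≤ Hρ)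
    (hHq : ∑ i, ∑ m ∈ (q i).support, w (coeff m (q i)) ≤ Hq) :
    0 < (⨆ i, w (eval u (ρ i))) ∧
      |Real.log (⨆ i, w (eval u (ρ i)))| ≤
        Real.log (max 1 Hρ) + Real.log (max 1 Hq) := by
  set A : ℝ := ⨆ i, w (eval u (ρ i)) with hA
  have hA0 : 0 ≤ A := Real.iSup_nonneg fun i => w.nonneg _
  have hAle : ∀ i, w (eval u (ρ i)) ≤ A := fun i => Finite.le_ciSup (fun i => w (eval u (ρ i))) i
  have hup : A ≤ max 1 Hρ :=
    Real.iSup_le (fun i => ((mw_homv_eval_le w (ρ i) u hu).trans (hHρ i)).trans (le_max_right _ _))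
      (le_trans zero_le_one (le_max_left _ _))
  have hlow : 1 ≤ max 1 Hq * A := by
    have h1 : (1 : ℝ) = w (∑ i, eval u (q i) * eval u (ρ i)) := by rw [hid, map_one]
    rw [h1]
    refine (w.sum_le _ _).trans ?_
    have h2 : ∑ i, w (eval u (q i) * eval u (ρ i)) ≤ ∑ i, w (eval u (q i)) * A :=
      Finset.sum_le_sum fun i _ => by
        rw [map_mul]
        exact mul_le_mul_of_nonneg_left (hAle i) (w.nonneg _)
    refine h2.trans ?_
    rw [← Finset.sum_mul]
    refine mul_le_mul_of_nonneg_right ?_ hA0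
    refine le_trans ?_ (le_max_right _ _)
    exact (Finset.sum_le_sum fun i _ => mw_homv_eval_le w (q i) u hu).trans hHq
  have hq1 : (1 : ℝ) ≤ max 1 Hq := le_max_left _ _
  have hρ1 : (1 : ℝ) ≤ max 1 Hρ := le_max_left _ _
  have hApos : 0 < A := by
    by_contra h
    have : A = 0 := le_antisymm (not_lt.mp h) hA0
    rw [this, mul_zero] at hlow
    linarith
  refine ⟨hApos, ?_⟩
  have h3 : Real.log A ≤ Real.log (max 1 Hρ) := Real.log_le_log hApos hup
  have h4 : -Real.log (max 1 Hq) ≤ Real.log A := by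
    have h5 : Real.log 1 ≤ Real.log (max 1 Hq * A) := Real.log_le_log one_pos hlow
    rw [Real.log_one, Real.log_mul (by linarith) hApos.ne'] at h5
    linarith
  have h6 : 0 ≤ Real.log (max 1 Hρ) := Real.log_nonneg hρ1
  have h7 : 0 ≤ Real.log (max 1 Hq) := Real.log_nonneg hq1
  rw [abs_le]
  constructor <;> linarith

/-- the ultrametric normalised estimate -/
theorem mw_homv_norm_na (hw : IsNonarchimedean w) (hu : ∀ i, w (u i) ≤ 1)
    (hid : ∑ i, eval u (q i) * eval u (ρ i) = 1) (D : ℝ) (hD : 1 ≤ D)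
    (hDρ : ∀ i m, w (coeff m (ρ i)) ≤ D) (hDq : ∀ i m, w (coeff m (q i)) ≤ D) :
    0 < (⨆ i, w (eval u (ρ i))) ∧ |Real.log (⨆ i, w (eval u (ρ i)))| ≤ Real.log D := by
  set A : ℝ := ⨆ i, w (eval u (ρ i)) with hA
  have hD0 : 0 ≤ D := le_trans zero_le_one hD
  have hA0 : 0 ≤ A := Real.iSup_nonneg fun i => w.nonneg _
  have hAle : ∀ i, w (eval u (ρ i)) ≤ A := fun i => Finite.le_ciSup (fun i => w (eval u (ρ i))) i
  have hup : A ≤ D :=
    Real.iSup_le (fun i => mw_homv_na_eval_le w hw (ρ i) u hu D hD0 (hDρ i)) hD0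
  have hlow : 1 ≤ D * A := by
    have h1 : (1 : ℝ) = w (∑ i, eval u (q i) * eval u (ρ i)) := by rw [hid, map_one]
    rw [h1]
    refine mw_homv_na_sum_le w hw _ _ (D * A) (mul_nonneg hD0 hA0) fun i _ => ?_
    rw [map_mul]
    exact mul_le_mul (mw_homv_na_eval_le w hw (q i) u hu D hD0 (hDq i)) (hAle i) (w.nonneg _) hD0
  have hApos : 0 < A := by
    by_contra h
    have : A = 0 := le_antisymm (not_lt.mp h) hA0
    rw [this, mul_zero] at hlow
    linarith
  refine ⟨hApos, ?_⟩
  have h3 : Real.log A ≤ Real.log D := Real.log_le_log hApos hup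
  have h4 : -Real.log D ≤ Real.log A := by
    have h5 : Real.log 1 ≤ Real.log (D * A) := Real.log_le_log one_pos hlow
    rw [Real.log_one, Real.log_mul (by linarith) hApos.ne'] at h5
    linarith
  rw [abs_le]
  constructor <;> linarith

end Normalised

end Fermat.Agent.MW
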