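/-
Project MW (S17), core leaf [HOMV], part 2 (Mathlib only): uniform bounds for the absolute values
of a fixed algebraic number at the places of all number fields `K' ≤ Q̄` containing it.

* `mw_homv_house α`      : `∑ |z|` over the complex roots of the minimal polynomial of `α`;
* `mw_homv_arch_le`      : `w α ≤ mw_homv_house α` at every archimedean `w` of every `K' ∋ α`;
* `mw_homv_exists_den`   : a common denominator `m ≥ 1` of a finite set of algebraic numbers;
* `mw_homv_na_le`        : `w α ≤ (w p)⁻¹ ^ v_p(m)` at every finite place `w` over `p`, if `m α` is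
                           integral.
Prefix `mw_homv_`.
-/
import Mathlib

set_option autoImplicit false

noncomputable section

namespace Fermat.Agent.MW

open NumberField Height
open scoped Classical

/-- `∑ |z|` over the complex roots of the minimal polynomial of `α` -/
def mw_homv_house (α : AlgebraicClosure ℚ) : ℝ :=
  (((minpoly ℚ α).aroots ℂ).map fun z => ‖z‖).sum

theorem mw_homv_house_nonneg (α : AlgebraicClosure ℚ) : 0 ≤ mw_homv_house α :=
  Multiset.sum_nonneg fun x hx => by
    obtain ⟨z, -, rfl⟩ := Multiset.mem_map.mp hx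
    exact norm_nonneg z

section Arch

variable (K' : IntermediateField ℚ (AlgebraicClosure ℚ)) [NumberField ↥K']

theorem mw_homv_arch_le (w : AbsoluteValue ↥K' ℝ)
    (hw : w ∈ AdmissibleAbsValues.archAbsVal (K := ↥K')) (x : ↥K') :
    w x ≤ mw_homv_house (x : AlgebraicClosure ℚ) := by
  have hw' : IsInfinitePlace w := mem_multisetInfinitePlace.mp hw
  obtain ⟨φ, rfl⟩ := hw'
  rw [place_apply]
  have hint : IsIntegral ℚ x := Algebra.IsIntegral.isIntegral x
  have hmin : minpoly ℚ (x : AlgebraicClosure ℚ) = minpoly ℚ x :=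
    minpoly.algebraMap_eq (algebraMap ↥K' (AlgebraicClosure ℚ)).injective x
  have hroot : φ x ∈ (minpoly ℚ (x : AlgebraicClosure ℚ)).aroots ℂ := by
    rw [Polynomial.mem_aroots, hmin]
    refine ⟨minpoly.ne_zero hint, ?_⟩
    have := Polynomial.aeval_algHom_apply φ.toRatAlgHom x (minpoly ℚ x)
    rw [minpoly.aeval, map_zero] at this
    exact this
  unfold mw_homv_house
  refine Multiset.single_le_sum (fun y hy => ?_) _ (Multiset.mem_map_of_mem _ hroot)
  obtain ⟨z, -, rfl⟩ := Multiset.mem_map.mp hy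
  exact norm_nonneg z

end Arch

/-- a common denominator -/
theorem mw_homv_exists_den (S : Finset (AlgebraicClosure ℚ)) :
    ∃ m : ℕ, 0 < m ∧ ∀ α ∈ S, IsIntegral ℤ ((m : AlgebraicClosure ℚ) * α) := by
  induction S using Finset.induction_on with
  | empty => exact ⟨1, one_pos, fun α hα => absurd hα (Finset.notMem_empty α)⟩
  | insert a S _ ih =>
    obtain ⟨m, hm, hS⟩ := ih
    have halg : IsAlgebraic ℤ a :=
      (IsFractionRing.isAlgebraic_iff ℤ ℚ (AlgebraicClosure ℚ)).mpr
        ((AlgebraicClosure.isAlgebraic ℚ).isAlgebraic a)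
    obtain ⟨y, hy, hya⟩ := halg.exists_integral_multiple
    have hy' : 0 < y.natAbs := Int.natAbs_pos.mpr hy
    have hya' : IsIntegral ℤ ((y.natAbs : AlgebraicClosure ℚ) * a) := by
      have h1 : ((y.natAbs : ℤ) : AlgebraicClosure ℚ) * a = (y.natAbs : ℤ) • a := by
        rw [zsmul_eq_mul]
      have h2 : (y.natAbs : ℤ) • a = y • a ∨ (y.natAbs : ℤ) • a = -(y • a) := by
        rcases Int.natAbs_eq y with h | h
        · left; rw [← h]
        · right
          have : (y.natAbs : ℤ) = -y := by omega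
          rw [this, neg_smul]
      have h3 : IsIntegral ℤ ((y.natAbs : ℤ) • a) := by
        rcases h2 with h | h
        · rw [h]; exact hya
        · rw [h]; exact hya.neg
      rw [← h1] at h3
      simpa using h3
    refine ⟨y.natAbs * m, Nat.mul_pos hy' hm, fun α hα => ?_⟩
    rcases Finset.mem_insert.mp hα with rfl | hα
    · have : ((y.natAbs * m : ℕ) : AlgebraicClosure ℚ) * α =
          (m : AlgebraicClosure ℚ) * ((y.natAbs : AlgebraicClosure ℚ) * α) := by
        push_cast; ring
      rw [this]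
      have hmint : IsIntegral ℤ ((m : ℕ) : AlgebraicClosure ℚ) := by
        have := isIntegral_algebraMap (R := ℤ) (A := AlgebraicClosure ℚ) (x := (m : ℤ))
        simpa using this
      exact hmint.mul hya'
    · have : ((y.natAbs * m : ℕ) : AlgebraicClosure ℚ) * α =
          (y.natAbs : AlgebraicClosure ℚ) * ((m : AlgebraicClosure ℚ) * α) := by
        push_cast; ring
      rw [this]
      have hyint : IsIntegral ℤ ((y.natAbs : ℕ) : AlgebraicClosure ℚ) := by
        have := isIntegral_algebraMap (R := ℤ) (A := AlgebraicClosure ℚ) (x := (y.natAbs : ℤ))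
        simpa using this
      exact hyint.mul (hS α hα)

section NA

variable {F : Type*} [Field F] (w : AbsoluteValue F ℝ) (hw : IsNonarchimedean w)

include hw in
theorem mw_homv_na_natCast_le_one (n : ℕ) : w (n : F) ≤ 1 := hw.apply_natCast_le_one

include hw in
theorem mw_homv_na_intCast_le_one (n : ℤ) : w (n : F) ≤ 1 := hw.apply_intCast_le_one

include hw in
/-- at a place over `p`, integers prime to `p` are units -/
theorem mw_homv_na_coprime {p : ℕ} (hp : p.Prime) (hwp : w (p : F) < 1) {n : ℕ} (hn : ¬ p ∣ n) :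
    w (n : F) = 1 := by
  apply le_antisymm (mw_homv_na_natCast_le_one w hw n)
  by_contra hlt
  rw [not_le] at hlt
  have hcop : Nat.Coprime p n := (Nat.Prime.coprime_iff_not_dvd hp).mpr hn
  -- Bezout
  have hb : (Nat.gcd p n : ℤ) = p * Nat.gcdA p n + n * Nat.gcdB p n := Nat.gcd_eq_gcd_ab p n
  rw [hcop] at hb
  have h1 : (1 : F) = (p : F) * ((Nat.gcdA p n : ℤ) : F) + (n : F) * ((Nat.gcdB p n : ℤ) : F) := by
    have := congrArg (fun z : ℤ => (z : F)) hb
    simpa using this
  have h2 : w (1 : F) < 1 := by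
    rw [h1]
    refine (hw _ _).trans_lt (max_lt ?_ ?_)
    · rw [map_mul]
      exact (mul_le_of_le_one_right (w.nonneg _) (mw_homv_na_intCast_le_one w hw _)).trans_lt hwp
    · rw [map_mul]
      exact (mul_le_of_le_one_right (w.nonneg _) (mw_homv_na_intCast_le_one w hw _)).trans_lt hlt
  rw [map_one] at h2
  exact lt_irrefl _ h2

include hw in
/-- `|m|_w = |p|_w ^ v_p(m)` at a place over `p` -/
theorem mw_homv_na_natCast {p : ℕ} (hp : p.Prime) (hwp : w (p : F) < 1) {m : ℕ} (hm : 0 < m) :
    w (m : F) = w (p : F) ^ padicValNat p m := by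
  have : Fact p.Prime := ⟨hp⟩
  obtain ⟨e, n', hn', hmn⟩ := Nat.exists_eq_pow_mul_and_not_dvd hm.ne' p hp.ne_one
  have hn0 : n' ≠ 0 := by
    rintro rfl
    exact hn' (dvd_zero p)
  have hval : padicValNat p m = e := by
    rw [hmn, padicValNat.mul (pow_ne_zero _ hp.ne_zero) hn0, padicValNat.prime_pow,
      padicValNat.eq_zero_of_not_dvd hn', add_zero]
  rw [hval]
  conv_lhs => rw [hmn]
  push_cast
  rw [map_mul, map_pow, mw_homv_na_coprime w hw hp hwp hn', mul_one]

end NA

section Fin

variable (K' : IntermediateField ℚ (AlgebraicClosure ℚ)) [NumberField ↥K']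

/-- algebraic integers have absolute value `≤ 1` at the finite places -/
theorem mw_homv_fin_le_one (w : AbsoluteValue ↥K' ℝ)
    (hw : w ∈ AdmissibleAbsValues.nonarchAbsVal (K := ↥K')) (x : ↥K') (hx : IsIntegral ℤ x) :
    w x ≤ 1 := by
  have hw' : IsFinitePlace w := hw
  obtain ⟨v, rfl⟩ := hw'
  rw [place_apply]
  have := FinitePlace.norm_le_one ↥K' v (⟨x, hx⟩ : 𝓞 ↥K')
  exact this

/-- the denominator bound at a finite place over `p` -/
theorem mw_homv_na_le (w : AbsoluteValue ↥K' ℝ)
    (hw : w ∈ AdmissibleAbsValues.nonarchAbsVal (K := ↥K')) {p : ℕ} (hp : p.Prime)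
    (hwp : w (p : ↥K') < 1) {m : ℕ} (hm : 0 < m) (x : ↥K')
    (hx : IsIntegral ℤ ((m : AlgebraicClosure ℚ) * (x : AlgebraicClosure ℚ))) :
    w x ≤ ((w (p : ↥K'))⁻¹) ^ padicValNat p m := by
  have hna : IsNonarchimedean w := AdmissibleAbsValues.isNonarchimedean w hw
  have hx' : IsIntegral ℤ ((m : ↥K') * x) := by
    have h1 : ((m : AlgebraicClosure ℚ) * (x : AlgebraicClosure ℚ)) =
        algebraMap ↥K' (AlgebraicClosure ℚ) ((m : ↥K') * x) := by
      simp
    rw [h1] at hx
    exact (isIntegral_algebraMap_iff (algebraMap ↥K' (AlgebraicClosure ℚ)).injective).mp hx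
  have h2 := mw_homv_fin_le_one K' w hw _ hx'
  rw [map_mul, mw_homv_na_natCast w hna hp hwp hm] at h2
  have hp0 : 0 < w (p : ↥K') := w.pos (by exact_mod_cast hp.ne_zero)
  have hpk : 0 < w (p : ↥K') ^ padicValNat p m := pow_pos hp0 _
  rw [inv_pow, ← one_div, le_div_iff₀ hpk]
  linarith [mul_comm (w x) (w (p : ↥K') ^ padicValNat p m)]

end Fin

end Fermat.Agent.MW
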